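import Fermat.Agent.Lib.RR.H742.AdelesCore

/-!
# RR library, layer L5 (core, hypothesis-explicit): Weil differentials and duality

A Weil differential vanishing on `𝔸(D) + F` is an element of `Om D`, the annihilator of
`SS D = 𝔸(D) + F` in the `K`-dual of the repartitions.  `F` acts by `(x ω)(α) = ω (x α)`.
We prove (Stichtenoth 1.5.9–1.5.14): any two nonzero Weil differentials are `F`-proportional,
a nonzero Weil differential has a divisor, and `L(W - D) ≃ Om D`.

Input from Riemann's theorem: hypotheses `hg` (Riemann's inequality with constant `g`) and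
`h₀` (the bound is attained at `D₀`).
-/

set_option autoImplicit false

noncomputable section

open AlgebraicCurve

namespace Fermat.Agent.Lib.RR.H742

open Fermat.Agent.Lib.RR

variable {K F : Type*} [Field K] [Field F] [Algebra K F]

/-! ### The action of `F` -/

/-- Multiplication by `x ∈ F` on repartitions, as a `K`-linear map. -/
def mulL (x : F) : ↥(repartitions K F) →ₗ[K] ↥(repartitions K F) where
  toFun α := iota x * α
  map_add' := mul_add _
  map_smul' c α := by
    apply Subtype.ext
    funext v
    show x * ((c • α : ↥(repartitions K F)) : Place K F → F) v =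
      ((c • (iota x * α) : ↥(repartitions K F)) : Place K F → F) v
    rw [coe_smul_apply, coe_smul_apply]
    show x * (algebraMap K F c * (α : Place K F → F) v) =
      algebraMap K F c * (x * (α : Place K F → F) v)
    ring

@[simp] theorem mulL_apply_apply (x : F) (α : ↥(repartitions K F)) (v : Place K F) :
    ((mulL x α : ↥(repartitions K F)) : Place K F → F) v = x * (α : Place K F → F) v := rfl

theorem mulL_mulL (x y : F) (α : ↥(repartitions K F)) :
    mulL x (mulL y α) = mulL (x * y) α := by
  apply Subtype.ext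
  funext v
  simp only [mulL_apply_apply]
  ring

theorem mulL_one (α : ↥(repartitions K F)) : mulL (1 : F) α = α := by
  apply Subtype.ext
  funext v
  simp only [mulL_apply_apply, one_mul]

theorem mulL_iota (x f : F) : mulL x (iota (K := K) f) = iota (x * f) := by
  apply Subtype.ext
  funext v
  simp only [mulL_apply_apply, iota_apply]

/-- The action of `x ∈ F` on `K`-linear forms on the repartitions. -/
def act (x : F) (ω : Module.Dual K ↥(repartitions K F)) : Module.Dual K ↥(repartitions K F) :=
  ω ∘ₗ mulL x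

theorem act_apply (x : F) (ω : Module.Dual K ↥(repartitions K F)) (α : ↥(repartitions K F)) :
    act x ω α = ω (mulL x α) := rfl

theorem act_act (x y : F) (ω : Module.Dual K ↥(repartitions K F)) :
    act x (act y ω) = act (y * x) ω := by
  ext α
  rw [act_apply, act_apply, act_apply, mulL_mulL]

theorem act_one (ω : Module.Dual K ↥(repartitions K F)) : act (1 : F) ω = ω := by
  ext α
  rw [act_apply, mulL_one]

theorem act_zero_right (x : F) : act x (0 : Module.Dual K ↥(repartitions K F)) = 0 := by
  ext α
  rw [act_apply]; rfl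

theorem act_add (x y : F) (ω : Module.Dual K ↥(repartitions K F)) :
    act (x + y) ω = act x ω + act y ω := by
  ext α
  rw [LinearMap.add_apply, act_apply, act_apply, act_apply, ← map_add]
  congr 1
  apply Subtype.ext
  funext v
  simp only [mulL_apply_apply, coe_add_apply]
  ring

theorem act_smul (c : K) (x : F) (ω : Module.Dual K ↥(repartitions K F)) :
    act (c • x) ω = c • act x ω := by
  ext α
  rw [LinearMap.smul_apply, act_apply, act_apply, ← map_smul]
  congr 1
  apply Subtype.ext
  funext v
  rw [coe_smul_apply]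
  simp only [mulL_apply_apply, Algebra.smul_def]
  ring

theorem act_zero_left (ω : Module.Dual K ↥(repartitions K F)) : act (0 : F) ω = 0 := by
  have := act_smul (0 : K) (0 : F) ω
  rwa [zero_smul, zero_smul] at this

theorem eq_zero_of_act_eq_zero {x : F} (hx : x ≠ 0) {ω : Module.Dual K ↥(repartitions K F)}
    (h : act x ω = 0) : ω = 0 := by
  have := congrArg (act x⁻¹) h
  rwa [act_act, mul_inv_cancel₀ hx, act_one, act_zero_right] at this

/-- `x ↦ x ω` as a `K`-linear map. -/
def actL (ω : Module.Dual K ↥(repartitions K F)) : F →ₗ[K] Module.Dual K ↥(repartitions K F) where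
  toFun x := act x ω
  map_add' x y := act_add x y ω
  map_smul' c x := act_smul c x ω

@[simp] theorem actL_apply (ω : Module.Dual K ↥(repartitions K F)) (x : F) :
    actL ω x = act x ω := rfl

/-! ### The spaces `Ω(D)` -/

/-- Weil differentials vanishing on `𝔸(D) + F`. -/
def Om (D : Divisor K F) : Submodule K (Module.Dual K ↥(repartitions K F)) :=
  (SS D).dualAnnihilator

theorem mem_Om_iff {D : Divisor K F} {ω : Module.Dual K ↥(repartitions K F)} :
    ω ∈ Om D ↔ ∀ α ∈ SS D, ω α = 0 :=
  Submodule.mem_dualAnnihilator _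

theorem mem_Om_iff' {D : Divisor K F} {ω : Module.Dual K ↥(repartitions K F)} :
    ω ∈ Om D ↔ (∀ α ∈ repartitionsOf D, ω α = 0) ∧ ∀ f : F, ω (iota f) = 0 := by
  rw [mem_Om_iff]
  constructor
  · intro h
    exact ⟨fun α hα => h α (Submodule.mem_sup_left hα),
      fun f => h _ (Submodule.mem_sup_right (iota_mem_principal f))⟩
  · rintro ⟨h1, h2⟩ α hα
    obtain ⟨f, hf⟩ := mem_SS_iff.mp hα
    have : α = (α - iota f) + iota f := by abel
    rw [this, map_add, h1 _ hf, h2 f, add_zero]

theorem act_mem_Om {ω : Module.Dual K ↥(repartitions K F)} {E E' : Divisor K F} {x : F}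
    (hx : x ≠ 0) (hω : ω ∈ Om E) (hE' : ∀ v : Place K F, E' v ≤ E v + v.ord x) :
    act x ω ∈ Om E' := by
  rw [mem_Om_iff'] at hω ⊢
  refine ⟨fun α hα => ?_, fun f => ?_⟩
  · rw [act_apply]
    apply hω.1
    rw [mem_repartitionsOf_iff] at hα ⊢
    intro v
    rcases hα v with h | h
    · left; rw [mulL_apply_apply, h, mul_zero]
    · rcases eq_or_ne ((α : Place K F → F) v) 0 with h0 | h0
      · left; rw [mulL_apply_apply, h0, mul_zero]
      · right
        rw [mulL_apply_apply, v.ord_mul hx h0]
        have := hE' v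
        omega
  · rw [act_apply, mulL_iota]
    exact hω.2 _

theorem Om_antitone {D D' : Divisor K F} (h : D ≤ D') : Om D' ≤ Om D :=
  Submodule.dualAnnihilator_anti (SS_mono h)

instance finite_Om (D : Divisor K F) [Module.Finite K (H1 D)] : Module.Finite K (Om D) :=
  Module.Finite.equiv (Submodule.dualQuotEquivDualAnnihilator (SS D))

theorem finrank_Om (D : Divisor K F) [Module.Finite K (H1 D)] :
    Module.finrank K (Om D) = Module.finrank K (H1 D) := by
  have h := (Submodule.dualQuotEquivDualAnnihilator (SS D)).finrank_eq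
  have h2 : Module.finrank K (Module.Dual K (H1 D)) = Module.finrank K (H1 D) :=
    Subspace.dual_finrank_eq
  exact h.symm.trans h2

/-! ### Riemann data -/

/-- The input from Riemann's theorem: Riemann's inequality with constant `g`, attained at `D₀`. -/
structure RBound (K F : Type*) [Field K] [Field F] [Algebra K F] where
  /-- the genus -/
  g : ℤ
  /-- Riemann's inequality -/
  hg : ∀ D : Divisor K F, Divisor.degree D + 1 - g ≤ ell D
  /-- a divisor attaining the bound -/
  D₀ : Divisor K F
  /-- the bound is attained -/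
  h₀ : (ell D₀ : ℤ) = Divisor.degree D₀ + 1 - g

section FF1

variable [hFF : FF1 K F]

theorem RBound.finite_H1 (R : RBound K F) (D : Divisor K F) : Module.Finite K (H1 D) :=
  (H1_core R.g R.hg R.h₀ D).1

theorem RBound.finrank_H1 (R : RBound K F) (D : Divisor K F) :
    (Module.finrank K (H1 D) : ℤ) = ell D - Divisor.degree D - 1 + R.g := by
  have := (H1_core R.g R.hg R.h₀ D).2
  omega

theorem RBound.g_nonneg (R : RBound K F) : 0 ≤ R.g := by
  have := R.hg 0
  rw [ell_zero, map_zero] at this
  push_cast at this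
  omega

theorem RBound.finrank_Om (R : RBound K F) (D : Divisor K F) :
    (Module.finrank K (Om D) : ℤ) = ell D - Divisor.degree D - 1 + R.g := by
  have := R.finite_H1 D
  rw [H742.finrank_Om D, R.finrank_H1 D]

theorem RBound.ell_eq_of_degree_ge (R : RBound K F) {D : Divisor K F}
    (h : Divisor.degree R.D₀ + R.g ≤ Divisor.degree D) :
    (ell D : ℤ) = Divisor.degree D + 1 - R.g := by
  have h1 := R.hg (D - R.D₀)
  rw [map_sub] at h1
  have hpos : 0 < ell (D - R.D₀) := by
    have : (0 : ℤ) < ell (D - R.D₀) := by omega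
    exact_mod_cast this
  have hne : riemannRochSpace (D - R.D₀) ≠ ⊥ := by
    intro hbot
    unfold ell at hpos
    rw [hbot, finrank_bot] at hpos
    exact lt_irrefl _ hpos
  obtain ⟨z, hz, hz0⟩ := Submodule.exists_mem_ne_zero_of_ne_bot hne
  have hle : R.D₀ ≤ D + divOf z hz0 := by
    rw [Finsupp.le_def]
    intro v
    have := (mem_L_iff.mp hz v).resolve_left hz0
    simp only [Finsupp.coe_sub, Pi.sub_apply, Finsupp.coe_add, Pi.add_apply, divOf_apply] at this ⊢
    omega
  have h2 := degree_sub_ell_mono hle
  rw [ell_add_divOf, map_add, degree_divOf, add_zero] at h2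
  have h3 := R.hg D
  have h4 := R.h₀
  omega

theorem RBound.Om_eq_bot (R : RBound K F) {D : Divisor K F}
    (h : Divisor.degree R.D₀ + R.g ≤ Divisor.degree D) : Om D = ⊥ := by
  have := R.finite_H1 D
  have h1 := R.finrank_Om D
  have h2 := R.ell_eq_of_degree_ge h
  have h3 : Module.finrank K (Om D) = 0 := by omega
  exact Submodule.finrank_eq_zero.mp h3

theorem RBound.exists_ne_zero_Om (R : RBound K F) :
    ∃ (A : Divisor K F) (ω : Module.Dual K ↥(repartitions K F)), ω ∈ Om A ∧ ω ≠ 0 := by
  obtain ⟨P⟩ := hFF.nonempty_place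
  have hdeg : Divisor.degree (-(prim P + prim P)) = -2 := by
    rw [map_neg, map_add, degree_prim']; norm_num
  have h1 := R.finrank_Om (-(prim P + prim P))
  have h2 : ell (-(prim P + prim P)) = 0 := ell_eq_zero_of_degree_neg (by rw [hdeg]; norm_num)
  have h3 := R.g_nonneg
  have hne : Om (-(prim P + prim P)) ≠ ⊥ := by
    intro hbot
    rw [hbot, finrank_bot, h2, hdeg] at h1
    push_cast at h1
    omega
  obtain ⟨ω, hω, hω0⟩ := Submodule.exists_mem_ne_zero_of_ne_bot hne
  exact ⟨_, ω, hω, hω0⟩

/-- **Stichtenoth 1.5.9**: the Weil differentials form a one-dimensional `F`-vector space. -/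
theorem RBound.exists_act_eq (R : RBound K F) {ω₁ ω₂ : Module.Dual K ↥(repartitions K F)} {A₁ A₂ : Divisor K F}
    (h₁ : ω₁ ∈ Om A₁) (h₂ : ω₂ ∈ Om A₂) (hne : ω₁ ≠ 0) : ∃ x : F, ω₂ = act x ω₁ := by
  by_contra hcon
  push Not at hcon
  obtain ⟨P⟩ := hFF.nonempty_place
  set n : ℕ := (3 * R.g - Divisor.degree A₁ - Divisor.degree A₂).toNat + 1 with hn
  have hn1 : 3 * R.g - Divisor.degree A₁ - Divisor.degree A₂ + 1 ≤ (n : ℤ) := by
    have := Int.self_le_toNat (3 * R.g - Divisor.degree A₁ - Divisor.degree A₂)
    rw [hn]; push_cast; omega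
  have hn0 : (1 : ℤ) ≤ n := by rw [hn]; push_cast; omega
  set B : Divisor K F := (n : ℤ) • prim P with hB
  have hdegB : Divisor.degree B = n := by
    rw [hB, map_zsmul, degree_prim']; simp
  -- the map
  have hmem : ∀ (ω : Module.Dual K ↥(repartitions K F)) (A : Divisor K F), ω ∈ Om A →
      ∀ x ∈ riemannRochSpace (A + B), act x ω ∈ Om (-B) := by
    intro ω A hω x hx
    rcases eq_or_ne x 0 with rfl | hx0
    · rw [act_zero_left]; exact Submodule.zero_mem _
    · refine act_mem_Om hx0 hω fun v => ?_
      have := (mem_L_iff.mp hx v).resolve_left hx0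
      simp only [Finsupp.coe_add, Pi.add_apply, Finsupp.coe_neg, Pi.neg_apply] at this ⊢
      omega
  let Φ : (riemannRochSpace (A₁ + B) × riemannRochSpace (A₂ + B)) →ₗ[K]
      Module.Dual K ↥(repartitions K F) :=
    ((actL ω₁).comp (riemannRochSpace (A₁ + B)).subtype).coprod
      ((actL ω₂).comp (riemannRochSpace (A₂ + B)).subtype)
  have hΦ : ∀ p, Φ p ∈ Om (-B) := by
    rintro ⟨x, y⟩
    show act (x : F) ω₁ + act (y : F) ω₂ ∈ Om (-B)
    exact Submodule.add_mem _ (hmem ω₁ A₁ h₁ x x.2) (hmem ω₂ A₂ h₂ y y.2)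
  let Ψ : (riemannRochSpace (A₁ + B) × riemannRochSpace (A₂ + B)) →ₗ[K] Om (-B) :=
    Φ.codRestrict (Om (-B)) hΦ
  have hinj : Function.Injective Ψ := by
    rw [injective_iff_map_eq_zero]
    rintro ⟨x, y⟩ hxy
    have hxy' : act (x : F) ω₁ + act (y : F) ω₂ = 0 := congrArg Subtype.val hxy
    have hy : (y : F) = 0 := by
      by_contra hy0
      apply hcon ((-(x : F)) * (y : F)⁻¹)
      have e1 : act (y : F) ω₂ = act (-(x : F)) ω₁ := by
        have h5 : act (-(x : F)) ω₁ + act (x : F) ω₁ = 0 := by
          rw [← act_add, neg_add_cancel, act_zero_left]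
        have h6 : act (y : F) ω₂ = -act (x : F) ω₁ := eq_neg_of_add_eq_zero_right hxy'
        rw [h6]
        exact (eq_neg_of_add_eq_zero_left h5).symm
      have e2 := congrArg (act (y : F)⁻¹) e1
      rwa [act_act, act_act, mul_inv_cancel₀ hy0, act_one] at e2
    have hx : (x : F) = 0 := by
      by_contra hx0
      rw [hy, act_zero_left, add_zero] at hxy'
      exact hne (eq_zero_of_act_eq_zero hx0 hxy')
    exact Prod.ext (Subtype.ext hx) (Subtype.ext hy)
  have := R.finite_H1 (-B)
  have hle := LinearMap.finrank_le_finrank_of_injective hinj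
  rw [Module.finrank_prod] at hle
  have e1 := R.finrank_Om (-B)
  have e2 : ell (-B) = 0 :=
    ell_eq_zero_of_degree_neg (by rw [map_neg, hdegB]; omega)
  have e3 := R.hg (A₁ + B)
  have e4 := R.hg (A₂ + B)
  rw [map_add, hdegB] at e3 e4
  rw [map_neg, hdegB, e2] at e1
  have hle' : (ell (A₁ + B) : ℤ) + ell (A₂ + B) ≤ Module.finrank K (Om (-B)) := by
    unfold ell
    exact_mod_cast hle
  push_cast at e1
  omega

/-- **Stichtenoth 1.5.10/11**: a nonzero Weil differential has a divisor. -/
theorem RBound.exists_max_divisor (R : RBound K F) {ω : Module.Dual K ↥(repartitions K F)} {A : Divisor K F}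
    (h : ω ∈ Om A) (hne : ω ≠ 0) :
    ∃ W : Divisor K F, ω ∈ Om W ∧ ∀ D : Divisor K F, ω ∈ Om D → D ≤ W := by
  have hbdd : ∃ b : ℤ, ∀ z : ℤ, (∃ D : Divisor K F, ω ∈ Om D ∧ Divisor.degree D = z) → z ≤ b := by
    refine ⟨Divisor.degree R.D₀ + R.g, ?_⟩
    rintro z ⟨D, hD, rfl⟩
    by_contra hcon
    push Not at hcon
    have := R.Om_eq_bot hcon.le
    rw [this, Submodule.mem_bot] at hD
    exact hne hD
  obtain ⟨ub, ⟨W, hW, hWdeg⟩, hmax⟩ :=
    Int.exists_greatest_of_bdd hbdd ⟨_, A, h, rfl⟩
  refine ⟨W, hW, fun D hD => ?_⟩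
  rw [Finsupp.le_def]
  intro Q
  by_contra hcon
  push Not at hcon
  have hnew : ω ∈ Om (W + prim Q) := by
    rw [mem_Om_iff'] at hW hD ⊢
    refine ⟨fun α hα => ?_, hW.2⟩
    rw [mem_repartitionsOf_iff] at hα
    have h2 : single Q ((α : Place K F → F) Q) ∈ repartitionsOf D := by
      rw [mem_repartitionsOf_iff]
      intro v
      by_cases hv : v = Q
      · subst hv
        rw [single_apply_self]
        rcases hα v with h0 | h0
        · exact Or.inl h0
        · right
          simp only [Finsupp.coe_add, Pi.add_apply, prim_apply_self] at h0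
          omega
      · left; exact single_apply_of_ne hv _
    have h1 : α - single Q ((α : Place K F → F) Q) ∈ repartitionsOf W := by
      rw [mem_repartitionsOf_iff]
      intro v
      by_cases hv : v = Q
      · subst hv
        left
        rw [coe_sub_apply, single_apply_self, sub_self]
      · rw [coe_sub_apply, single_apply_of_ne hv, sub_zero]
        have := hα v
        simpa [prim_apply_of_ne hv] using this
    have : α = (α - single Q ((α : Place K F → F) Q)) + single Q ((α : Place K F → F) Q) := by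
      abel
    rw [this, map_add, hW.1 _ h1, hD.1 _ h2, add_zero]
  have := hmax _ ⟨_, hnew, rfl⟩
  rw [map_add, degree_prim', hWdeg] at this
  omega

/-- **L5, hypothesis-explicit** (duality theorem, Stichtenoth 1.5.14): there is a divisor `W`
with `dim H¹(D) = ℓ(W - D)` for all `D`. -/
theorem RBound.exists_canonical (R : RBound K F) :
    ∃ W : Divisor K F, ∀ D : Divisor K F, Module.finrank K (H1 D) = ell (W - D) := by
  obtain ⟨A₀, ω₀, hω₀, hne⟩ := R.exists_ne_zero_Om
  obtain ⟨W, hW, hmax⟩ := R.exists_max_divisor hω₀ hne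
  refine ⟨W, fun D => ?_⟩
  have := R.finite_H1 D
  have hmem : ∀ x : riemannRochSpace (W - D),
      ((actL ω₀).comp (riemannRochSpace (W - D)).subtype) x ∈ Om D := by
    intro x
    show act (x : F) ω₀ ∈ Om D
    rcases eq_or_ne (x : F) 0 with hx | hx0
    · rw [hx, act_zero_left]; exact Submodule.zero_mem _
    · refine act_mem_Om hx0 hW fun v => ?_
      have := (mem_L_iff.mp x.2 v).resolve_left hx0
      simp only [Finsupp.coe_sub, Pi.sub_apply] at this
      omega
  let μ : riemannRochSpace (W - D) →ₗ[K] Om D :=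
    ((actL ω₀).comp (riemannRochSpace (W - D)).subtype).codRestrict (Om D) hmem
  have hinj : Function.Injective μ := by
    rw [injective_iff_map_eq_zero]
    intro x hx
    have hx' : act (x : F) ω₀ = 0 := congrArg Subtype.val hx
    by_contra hx0
    have hx0' : (x : F) ≠ 0 := fun h => hx0 (Subtype.ext h)
    exact hne (eq_zero_of_act_eq_zero hx0' hx')
  have hsurj : Function.Surjective μ := by
    rintro ⟨ω₁, hω₁⟩
    obtain ⟨x, hx⟩ := R.exists_act_eq hW hω₁ hne
    rcases eq_or_ne x 0 with rfl | hx0
    · refine ⟨0, Subtype.ext ?_⟩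
      rw [act_zero_left] at hx
      rw [map_zero]
      exact hx.symm
    · have hback : ω₀ = act x⁻¹ ω₁ := by
        rw [hx, act_act, mul_inv_cancel₀ hx0, act_one]
      have hω₀' : ω₀ ∈ Om (D - divOf x hx0) := by
        rw [hback]
        refine act_mem_Om (inv_ne_zero hx0) hω₁ fun v => ?_
        simp only [Finsupp.coe_sub, Pi.sub_apply, divOf_apply, v.ord_inv]
        omega
      have hle := Finsupp.le_def.mp (hmax _ hω₀')
      have hxL : x ∈ riemannRochSpace (W - D) := by
        rw [mem_L_iff]
        intro v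
        right
        have := hle v
        simp only [Finsupp.coe_sub, Pi.sub_apply, divOf_apply] at this ⊢
        omega
      exact ⟨⟨x, hxL⟩, Subtype.ext hx.symm⟩
  have e := LinearEquiv.ofBijective μ ⟨hinj, hsurj⟩
  have h1 := e.finrank_eq
  rw [H742.finrank_Om D] at h1
  exact h1.symm

end FF1

end Fermat.Agent.Lib.RR.H742
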